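import Fermat.Statements.S02

set_option autoImplicit false
open FreyPackage

namespace Fermat.Agent.S02

/-- Final step: coprime, `a` odd, `b` even. Fix the residue of `a` mod 4 by a global sign. -/
theorem of_coprime_b_even (a b c : ℤ) (ha : a ≠ 0) (hb : b ≠ 0) (hc : c ≠ 0) (p : ℕ)
    (pp : p.Prime) (hp5 : 5 ≤ p) (H : a ^ p + b ^ p = c ^ p) (hgcd : gcd a b = 1)
    (hbe : Even b) : Nonempty FreyPackage := by
  have p_odd : Odd p := pp.odd_of_ne_two (by omega)
  have hb2 : (b : ZMod 2) = 0 := by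
    rw [ZMod.intCast_zmod_eq_zero_iff_dvd]
    exact_mod_cast even_iff_two_dvd.1 hbe
  have hnb2 : ((-b : ℤ) : ZMod 2) = 0 := by
    push_cast
    rw [hb2, neg_zero]
  -- `a` is odd
  have hao : Odd a := by
    rcases Int.even_or_odd a with hae | hao
    · exfalso
      have h2a : (2 : ℤ) ∣ a := even_iff_two_dvd.1 hae
      have h2b : (2 : ℤ) ∣ b := even_iff_two_dvd.1 hbe
      have h2 : (2 : ℤ) ∣ gcd a b := dvd_gcd h2a h2b
      rw [hgcd] at h2
      norm_num at h2
    · exact hao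
  have ha41 : a % 4 = 1 ∨ a % 4 = 3 := by
    have := Int.odd_iff.1 hao
    omega
  rcases ha41 with h1 | h3
  · -- replace by negatives
    refine ⟨⟨-a, -b, -c, neg_ne_zero.2 ha, neg_ne_zero.2 hb, neg_ne_zero.2 hc, p, pp, hp5, ?_,
      ?_, ?_, hnb2⟩⟩
    · rw [p_odd.neg_pow, p_odd.neg_pow, p_odd.neg_pow, ← H]
      ring
    · rw [gcd_neg, neg_gcd]
      exact hgcd
    · have h : ((-a : ℤ) : ZMod 4) = ((3 : ℤ) : ZMod 4) := by
        rw [ZMod.intCast_eq_intCast_iff]
        change (-a) % 4 = 3 % 4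
        omega
      simpa using h
  · refine ⟨⟨a, b, c, ha, hb, hc, p, pp, hp5, H, hgcd, ?_, hb2⟩⟩
    have h : ((a : ℤ) : ZMod 4) = ((3 : ℤ) : ZMod 4) := by
      rw [ZMod.intCast_eq_intCast_iff]
      change a % 4 = 3 % 4
      omega
    simpa using h

/-- Coprime case: arrange `b` to be even by permuting. -/
theorem of_coprime (a b c : ℤ) (ha : a ≠ 0) (hb : b ≠ 0) (hc : c ≠ 0) (p : ℕ)
    (pp : p.Prime) (hp5 : 5 ≤ p) (H : a ^ p + b ^ p = c ^ p) (hgcd : gcd a b = 1) :
    Nonempty FreyPackage := by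
  have p_odd : Odd p := pp.odd_of_ne_two (by omega)
  have hp0 : p ≠ 0 := by omega
  rcases Int.even_or_odd b with hbe | hbo
  · exact of_coprime_b_even a b c ha hb hc p pp hp5 H hgcd hbe
  rcases Int.even_or_odd a with hae | hao
  · refine of_coprime_b_even b a c hb ha hc p pp hp5 ?_ ?_ hae
    · rw [add_comm]; exact H
    · rw [gcd_comm]; exact hgcd
  · -- both odd: then `c` is even
    have hce : Even c := by
      have h1 : Even (c ^ p) := by
        rw [← H]
        exact (hao.pow).add_odd (hbo.pow)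
      exact (Int.even_pow.1 h1).1
    refine of_coprime_b_even a (-c) (-b) ha (neg_ne_zero.2 hc) (neg_ne_zero.2 hb) p pp hp5 ?_ ?_
      hce.neg
    · rw [p_odd.neg_pow, p_odd.neg_pow, ← H]
      ring
    · rw [gcd_neg]
      rw [← gcdab_eq_gcdac (by omega : 0 < p) H]
      exact hgcd

theorem result (a b c : ℤ) (ha : a ≠ 0) (hb : b ≠ 0) (hc : c ≠ 0) (p : ℕ) (pp : p.Prime) (hp5 : 5 ≤ p) (H : a ^ p + b ^ p = c ^ p) : Nonempty FreyPackage := by
  have hp0 : p ≠ 0 := by omega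
  have hdpos : 0 < Int.gcd a b := Int.gcd_pos_of_ne_zero_left b ha
  obtain ⟨a', b', hgcd', hae, hbe⟩ := Int.exists_gcd_one hdpos
  set d : ℤ := (Int.gcd a b : ℤ) with hd
  have hd0 : d ≠ 0 := by
    rw [hd]
    exact_mod_cast hdpos.ne'
  have hdc : d ∣ c := by
    rw [← Int.pow_dvd_pow_iff hp0, ← H]
    apply dvd_add <;> rw [Int.pow_dvd_pow_iff hp0]
    · exact Int.gcd_dvd_left a b
    · exact Int.gcd_dvd_right a b
  obtain ⟨c', hce⟩ := hdc
  have ha'0 : a' ≠ 0 := by
    rintro rfl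
    apply ha
    rw [hae, zero_mul]
  have hb'0 : b' ≠ 0 := by
    rintro rfl
    apply hb
    rw [hbe, zero_mul]
  have hc'0 : c' ≠ 0 := by
    rintro rfl
    apply hc
    rw [hce, mul_zero]
  have H' : a' ^ p + b' ^ p = c' ^ p := by
    have hdp : d ^ p ≠ 0 := pow_ne_zero p hd0
    apply mul_left_cancel₀ hdp
    have : a ^ p + b ^ p = c ^ p := H
    rw [hae, hbe, hce] at this
    rw [mul_pow, mul_pow, mul_pow] at this
    linear_combination this
  refine of_coprime a' b' c' ha'0 hb'0 hc'0 p pp hp5 H' ?_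
  rw [← Int.coe_gcd, hgcd']
  rfl

end Fermat.Agent.S02
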