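import Fermat.Statements.S05
import Fermat.Agent.S05.Final
import Fermat.Agent.S05.ShortMain

set_option autoImplicit false
open WeierstrassCurve WeierstrassCurve.Affine WeierstrassCurve.Affine.Point
open CuspForm ModularFormClass UpperHalfPlane
open FreyPackage

namespace Fermat.Agent.S05

theorem result (P : FreyPackage) {q : ℕ} (hq : q.Prime) (hq2 : q ≠ 2) (hqp : q ≠ P.p) : P.GaloisRepUnramifiedAt q := by
  exact Fermat.Agent.S05.result_of_short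
    (fun A σ hσ h2 W h₁ h₃ h₆ r₂ r₃ ha₂ ha₄ hr₂ hr₂0 hr₃ hr₂₃ π hπσ hπ0 n m hn hvn hr₂π _ _ h h' hP hQ =>
      Fermat.Agent.S05.short_main A.valuation σ hσ h2 W h₁ h₃ h₆ r₂ r₃ ha₂ ha₄ hr₂ hr₂0 hr₃ hr₂₃
        π hπσ hπ0 n m hn hvn hr₂π h h' hP hQ)
    P hq hq2 hqp

end Fermat.Agent.S05
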