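-- Statement S07: every weight-2 cusp form of level Gamma0(2) is zero.
import Fermat.Statements.S07
import Fermat.Prelude.Thm_ModularForm_sturm_bound_Gamma0
import Fermat.Prelude.Thm_CongruenceSubgroup_one_mem_strictPeriods_Gamma0

set_option autoImplicit false
open WeierstrassCurve WeierstrassCurve.Affine WeierstrassCurve.Affine.Point
open CuspForm ModularFormClass UpperHalfPlane
open ModularForm

namespace Fermat.Agent.S07

open scoped MatrixGroups

/-- Pure `ZMod 2` arithmetic: two unimodular matrices have proportional first columns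
iff their first columns agree. -/
theorem zmod_two_key :
    ∀ a₁ b₁ c₁ d₁ a₂ b₂ c₂ d₂ : ZMod 2,
      a₁ * d₁ - b₁ * c₁ = 1 → a₂ * d₂ - b₂ * c₂ = 1 →
        (-c₁ * a₂ + a₁ * c₂ = 0 ↔ (a₁ = a₂ ∧ c₁ = c₂)) := by
  decide

/-- The first column modulo `2` of a matrix in `SL(2, ℤ)`. -/
def firstColModTwo (γ : SL(2, ℤ)) : ZMod 2 × ZMod 2 :=
  (((γ 0 0 : ℤ) : ZMod 2), ((γ 1 0 : ℤ) : ZMod 2))

theorem det_modTwo (γ : SL(2, ℤ)) :
    ((γ 0 0 : ℤ) : ZMod 2) * ((γ 1 1 : ℤ) : ZMod 2)
      - ((γ 0 1 : ℤ) : ZMod 2) * ((γ 1 0 : ℤ) : ZMod 2) = 1 := by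
  have h := γ.det_coe
  rw [Matrix.det_fin_two] at h
  have h2 := congrArg (fun x : ℤ => (x : ZMod 2)) h
  simpa using h2

theorem inv_mul_mem_Gamma0_two_iff (γ₁ γ₂ : SL(2, ℤ)) :
    γ₁⁻¹ * γ₂ ∈ CongruenceSubgroup.Gamma0 2 ↔ firstColModTwo γ₁ = firstColModTwo γ₂ := by
  rw [CongruenceSubgroup.Gamma0_mem]
  have hentry : ((γ₁⁻¹ * γ₂) 1 0 : ℤ) = -(γ₁ 1 0) * (γ₂ 0 0) + (γ₁ 0 0) * (γ₂ 1 0) := by
    rw [Matrix.SpecialLinearGroup.coe_mul, Matrix.SpecialLinearGroup.SL2_inv_expl,
      Matrix.mul_apply]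
    simp [Fin.sum_univ_two]
  rw [hentry]
  have := zmod_two_key _ _ _ _ _ _ _ _ (det_modTwo γ₁) (det_modTwo γ₂)
  simp only [firstColModTwo, Prod.mk.injEq]
  push_cast
  exact this

theorem index_Gamma0_two_le : (CongruenceSubgroup.Gamma0 2).index ≤ 4 := by
  classical
  let ψ : SL(2, ℤ) ⧸ CongruenceSubgroup.Gamma0 2 → ZMod 2 × ZMod 2 :=
    Quotient.lift firstColModTwo
      (fun a b h => (inv_mul_mem_Gamma0_two_iff a b).mp (QuotientGroup.leftRel_apply.mp h))
  have hψ : Function.Injective ψ := by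
    intro x y
    induction x using QuotientGroup.induction_on with
    | H a =>
      induction y using QuotientGroup.induction_on with
      | H b =>
        intro h
        exact QuotientGroup.eq.mpr ((inv_mul_mem_Gamma0_two_iff a b).mpr h)
  have h := Nat.card_le_card_of_injective ψ hψ
  have h4 : Nat.card (ZMod 2 × ZMod 2) = 4 := by
    simp [Nat.card_eq_fintype_card]
  rw [h4] at h
  exact h

theorem sturm_bound_eq_zero :
    ((2 : ℤ) * ((CongruenceSubgroup.Gamma0 2).index : ℤ)).toNat / 12 = 0 := by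
  have h := index_Gamma0_two_le
  have h1 : ((2 : ℤ) * ((CongruenceSubgroup.Gamma0 2).index : ℤ)).toNat
      = 2 * (CongruenceSubgroup.Gamma0 2).index := by
    have : ((2 : ℤ) * ((CongruenceSubgroup.Gamma0 2).index : ℤ))
        = ((2 * (CongruenceSubgroup.Gamma0 2).index : ℕ) : ℤ) := by push_cast; rfl
    rw [this, Int.toNat_natCast]
  rw [h1]
  omega

theorem result (f : CuspForm (CongruenceSubgroup.Gamma0 2) 2) : f = 0 := by
  -- the modular form underlying `f`
  let g : ModularForm (CongruenceSubgroup.Gamma0 2) 2 :=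
    { toSlashInvariantForm := f.toSlashInvariantForm
      holo' := f.holo'
      bdd_at_cusps' := fun hc γ hγ => (f.zero_at_cusps' hc γ hγ).isBoundedAtImInfty }
  have hg : g = 0 := by
    apply ModularForm.sturm_bound_Gamma0 2 g
    intro n hn
    rw [sturm_bound_eq_zero] at hn
    have hn0 : n = 0 := Nat.le_zero.mp hn
    subst hn0
    exact CuspFormClass.qExpansion_coeff_zero f one_pos
      (CongruenceSubgroup.one_mem_strictPeriods_Gamma0 2)
  ext z
  have hz : g z = 0 := by rw [hg]; rfl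
  exact hz

end Fermat.Agent.S07
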