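-- Statement S10: the Frey curve has no Galois-stable cofixed line when `p ∈ {5, 7, 13}`.
-- Proof: there is no Frey package with such `p`, by Fermat's Last Theorem for the exponents
-- 5, 7, 13 (Kummer: first case by Sophie Germain, second case by descent in the principal
-- ideal domain `ℤ[ζ_p]` using Kummer's lemma).
import Fermat.Statements.S10
import Fermat.Agent.S11.Setting
import Fermat.Agent.S11.PIDSeven
import Fermat.Agent.S11.PIDThirteen
import Fermat.Agent.S11.KummerLemma

set_option autoImplicit false
open WeierstrassCurve WeierstrassCurve.Affine WeierstrassCurve.Affine.Point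
open CuspForm ModularFormClass UpperHalfPlane
open FreyPackage

namespace Fermat.Agent.S10

open Fermat.Agent.S11

set_option backward.isDefEq.respectTransparency false in
/-- There is no Frey package with exponent `5`. -/
theorem not_freyPackage_five (P : FreyPackage) (hp : P.p = 5) : False := by
  have : Fact (Nat.Prime 5) := ⟨by norm_num⟩
  have hζ := IsCyclotomicExtension.zeta_spec 5 ℚ (CyclotomicField 5 ℚ)
  have : NumberField (CyclotomicField 5 ℚ) := IsCyclotomicExtension.numberField {5} ℚ _
  have : IsPrincipalIdealRing (NumberField.RingOfIntegers (CyclotomicField 5 ℚ)) :=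
    IsCyclotomicExtension.Rat.five_pid (CyclotomicField 5 ℚ)
  exact not_freyPackage_of_caseI_of_gen hζ (by norm_num) (fun h hab => caseI_five h hab)
    (FLTGen_of_pid_of_kummer hζ (by norm_num)
      (fun u hu => kummer_lemma (Or.inl rfl) u hu)) P hp

set_option backward.isDefEq.respectTransparency false in
/-- There is no Frey package with exponent `7`. -/
theorem not_freyPackage_seven (P : FreyPackage) (hp : P.p = 7) : False := by
  have : Fact (Nat.Prime 7) := ⟨by norm_num⟩
  have hζ := IsCyclotomicExtension.zeta_spec 7 ℚ (CyclotomicField 7 ℚ)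
  have : NumberField (CyclotomicField 7 ℚ) := IsCyclotomicExtension.numberField {7} ℚ _
  have : IsPrincipalIdealRing (NumberField.RingOfIntegers (CyclotomicField 7 ℚ)) :=
    Fermat.Agent.S11.PID.pid_seven (CyclotomicField 7 ℚ)
  exact not_freyPackage_of_caseI_of_gen hζ (by norm_num) (fun h hab => caseI_seven h hab)
    (FLTGen_of_pid_of_kummer hζ (by norm_num)
      (fun u hu => kummer_lemma (Or.inr (Or.inl rfl)) u hu)) P hp

set_option backward.isDefEq.respectTransparency false in
/-- There is no Frey package with exponent `13`. -/
theorem not_freyPackage_thirteen (P : FreyPackage) (hp : P.p = 13) : False := by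
  have : Fact (Nat.Prime 13) := ⟨by norm_num⟩
  have hζ := IsCyclotomicExtension.zeta_spec 13 ℚ (CyclotomicField 13 ℚ)
  have : NumberField (CyclotomicField 13 ℚ) := IsCyclotomicExtension.numberField {13} ℚ _
  have : IsPrincipalIdealRing (NumberField.RingOfIntegers (CyclotomicField 13 ℚ)) :=
    Fermat.Agent.S11.PID.pid_thirteen (CyclotomicField 13 ℚ)
  exact not_freyPackage_of_caseI_of_gen hζ (by norm_num) (fun h hab => caseI_thirteen h hab)
    (FLTGen_of_pid_of_kummer hζ (by norm_num)
      (fun u hu => kummer_lemma (Or.inr (Or.inr (Or.inr rfl))) u hu)) P hp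

theorem result (P : FreyPackage) (hp : P.p = 5 ∨ P.p = 7 ∨ P.p = 13) : ¬ HasGaloisStableCofixedLine (K := AlgebraicClosure ℚ) ℚ P.freyCurve P.p := by
  intro _
  rcases hp with h | h | h
  · exact not_freyPackage_five P h
  · exact not_freyPackage_seven P h
  · exact not_freyPackage_thirteen P h

end Fermat.Agent.S10
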