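-- Statement S11: the Frey curve has no Galois-stable cofixed line when `p = 11`.
-- Proof: there is no Frey package with `p = 11`, by Fermat's Last Theorem for exponent 11
-- (Kummer: first case by Sophie Germain, second case by descent in the principal ideal
-- domain `ℤ[ζ₁₁]` using Kummer's lemma).
import Fermat.Statements.S11
import Fermat.Agent.S11.Setting
import Fermat.Agent.S11.PIDEleven
import Fermat.Agent.S11.KummerLemma

set_option autoImplicit false
open WeierstrassCurve WeierstrassCurve.Affine WeierstrassCurve.Affine.Point
open CuspForm ModularFormClass UpperHalfPlane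
open FreyPackage

namespace Fermat.Agent.S11

set_option backward.isDefEq.respectTransparency false in
/-- There is no Frey package with exponent `11`. -/
theorem not_freyPackage_eleven (P : FreyPackage) (hp : P.p = 11) : False := by
  have : Fact (Nat.Prime 11) := ⟨by norm_num⟩
  have hζ := IsCyclotomicExtension.zeta_spec 11 ℚ (CyclotomicField 11 ℚ)
  have : NumberField (CyclotomicField 11 ℚ) := IsCyclotomicExtension.numberField {11} ℚ _
  have : IsPrincipalIdealRing (NumberField.RingOfIntegers (CyclotomicField 11 ℚ)) :=
    Fermat.Agent.S11.PID.pid_eleven (CyclotomicField 11 ℚ)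
  exact not_freyPackage_of_caseI_of_gen hζ (by norm_num) (fun h hab => caseI_eleven h hab)
    (FLTGen_of_pid_of_kummer hζ (by norm_num)
      (fun u hu => kummer_lemma (Or.inr (Or.inr (Or.inl rfl))) u hu)) P hp

theorem result (P : FreyPackage) (hp : P.p = 11) : ¬ HasGaloisStableCofixedLine (K := AlgebraicClosure ℚ) ℚ P.freyCurve P.p := by
  intro _
  exact not_freyPackage_eleven P hp

end Fermat.Agent.S11
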