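import Fermat.Statements.S13
import Fermat.Agent.S05
import Fermat.Agent.S13.Defs
import Fermat.Agent.S13.Glue
import Fermat.Agent.S13.Conj
import Fermat.Agent.S13.DivX
import Fermat.Agent.S13.DivC
import Fermat.Agent.S13.Card
import Fermat.Agent.S13.LocP
import Fermat.Agent.S13.LocPKer
import Fermat.Agent.S13.Loc2Final

set_option autoImplicit false
open WeierstrassCurve WeierstrassCurve.Affine WeierstrassCurve.Affine.Point
open CuspForm ModularFormClass UpperHalfPlane
open FreyPackage

namespace Fermat.Agent.S13

theorem result (P : FreyPackage) (hred : ¬ GaloisRepIsIrreducible (K := AlgebraicClosure ℚ) ℚ P.freyCurve P.p) : HasGaloisStableCofixedLine (K := AlgebraicClosure ℚ) ℚ P.freyCurve P.p := by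
  exact glue divX card loc2 (locP_of_ker locPKer divC) conj
    (fun P _ hq hq2 hqp => Fermat.Agent.S05.result P hq hq2 hqp) P hred

end Fermat.Agent.S13
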