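import Fermat.Statements.S14
import Fermat.Agent.S14.Reduction
import Fermat.Agent.S14.KummerGen
import Fermat.Agent.S14.UnramVal
import Fermat.Agent.S14.DecompApprox
import Fermat.Agent.S14.Core
import Fermat.Agent.S14.ClassGroup
import Fermat.Agent.S14.ThaineChar
import Fermat.Agent.S14.Thaine
import Fermat.Agent.S14.Analytic
import Fermat.Agent.S14.Units
import Fermat.Agent.S14.UnitsOmega

/-!
# S14: the Ext-vanishing property for every prime `p ≥ 3`

Route (no class field theory): reduction of a non-split admissible extension to a Kummer
generator in `ℚ(ζ_p)` (RED), the arithmetic of the cyclotomic field (CORE), which rests on the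
vanishing of the `ω²`-part of the class group modulo `p` (CL).  The latter follows from Thaine's
relation (TH), the boundedness of class group `L`-functions near `s = 1` (AN), and the fact that the
`ω²`-cyclotomic element is not a `p`-th power (UN).
-/

set_option autoImplicit false
open ExtCitation

namespace Fermat.Agent.S14

theorem result {p : ℕ} [Fact p.Prime] (h3 : 3 ≤ p) :
    ExtCitation.ExtVanishingCts p :=
  redE_result_of h3 (kummerGenerator p) unramifiedValuation decompositionApprox coreThree
    (fun h5 => core p
      (classGroup_of p h3 (thaineChar p (thaine p)) analytic
        (fun K _ _ _ ζ hζ => omegaSqElt_not_pow h5 K ζ hζ))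
      (units h5))

end Fermat.Agent.S14
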