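import Fermat.Statements.S16
import Fermat.Agent.S16.Final2
import Fermat.Agent.S16.DeltaTest2
import Fermat.Agent.S16.L3Main
import Fermat.Agent.S16.SwdL5Main
import Fermat.Agent.S16.LPMain
import Fermat.Agent.S16.NoEightFin

set_option autoImplicit false
open ModularCurve CuspForm
open ModularCurve

namespace Fermat.Agent.S16

theorem result
    (p : ℕ) [Fact p.Prime] :
    Nat.card (↥(heckeLatticeAlgebra p ∅) ⧸
        Ideal.map ((latticeRestrictHom p ∅).toRingHom.comp (heckeEvalForms p 2))
          (eisensteinIdeal p)) =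
      eisensteinNumerator p :=
  s16fin_main2 s16dt_fin (fun p hp h9 => l3_noH p hp h9) s16w_fin_L5 s16lp_fin s16n_fin_C22 p

end Fermat.Agent.S16
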