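import Fermat.Statements.S20
import Fermat.Agent.S20.Assembly
import Fermat.Agent.S20.Key
import Fermat.Agent.S20.DualCusp
import Fermat.Agent.S20.CuspRank

/-!
# S20: `dim S₂(Γ₀(N)) = genusFormula N`

Route: the graded module `⊕ₖ Mₖ(Γ₀(N))` is free over `ℂ[E₄, E₆]` (FREE, KEY, LOC), the dual
family of a frame gives a basis of the cusp forms (DUAL, α1), the cusps are counted by the
weight-14 forms modulo cusp forms (α2), and the generating-function bookkeeping with the
eigenvalue counts of `S`, `ST`, `T` on `SL(2,ℤ) ⧸ Γ₀(N)` yields the genus formula.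
-/

set_option autoImplicit false
open CuspForm

namespace Fermat.Agent.S20

theorem result (N : ℕ) [NeZero N] :
    (Module.finrank ℂ (CuspForm (CongruenceSubgroup.Gamma0 N) 2) : ℚ) = ModularCurve.genusFormula N := by
  exact assembly N (key N) (dualCusp N) (cuspRank_of_dualCusp N (dualCusp N))

end Fermat.Agent.S20
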