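import Fermat.Statements.S21
import Fermat.Agent.S20
import Fermat.Agent.S21.Final
import Fermat.Agent.S21.Prim
import Fermat.Agent.S21.Lin
import Fermat.Agent.S21.Par
import Fermat.Agent.S21.Harm
import Fermat.Agent.S21.Inj
import Fermat.Agent.S21.Dim

set_option autoImplicit false
open ModularCurve

namespace Fermat.Agent.S21

/-- The cusp forms of weight 2 on `Γ₀(N)` are finite dimensional (they embed into the modular
forms, which are finite dimensional by the free basis of S20). -/
theorem result_finite (N : ℕ) [NeZero N] :
    Module.Finite ℂ (CuspForm (CongruenceSubgroup.Gamma0 N) 2) := by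
  classical
  obtain ⟨ι, _, w, F, hF⟩ := Fermat.Agent.S20.frame_of_free_loc N (Fermat.Agent.S20.free N)
    (Fermat.Agent.S20.loc_of_key N (Fermat.Agent.S20.key N))
  have hfd : FiniteDimensional ℂ (ModularForm (Fermat.Agent.S22.G0 N) 2) :=
    (hF.basis.finrank 2).1
  let φ : CuspForm (CongruenceSubgroup.Gamma0 N) 2 →ₗ[ℂ]
      ModularForm (Fermat.Agent.S22.G0 N) 2 :=
    { toFun := fun f =>
        { toSlashInvariantForm := f.toSlashInvariantForm
          holo' := f.holo'
          bdd_at_cusps' := fun hc => ModularFormClass.bdd_at_cusps f hc }
      map_add' := fun f g => rfl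
      map_smul' := fun c f => rfl }
  have hinj : Function.Injective φ := by
    intro f g h
    ext z
    have := congrArg (fun m : ModularForm (Fermat.Agent.S22.G0 N) 2 => m z) h
    exact this
  exact Module.Finite.of_injective φ hinj

theorem result (N : ℕ) [NeZero N] :
    Function.Injective (ModularCurve.periodHomPair N)
      ∧ LinearMap.range (ModularCurve.periodHomPair N)
          = ModularCurve.Period.parabolicHoms ℂ (CongruenceSubgroup.Gamma0 N) ℂ := by
  exact final N (prim N) (lin N (prim N) (periodEq N)) (par N (prim N) (periodEq N))
    (inj N (prim N) (periodEq N) (harm N)) (dim N) (result_finite N)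
    (Fermat.Agent.S20.result N)

end Fermat.Agent.S21
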