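import Fermat.Statements.S24
import Fermat.Agent.S24.Final
import Fermat.Agent.S24.FFIdentity
import Fermat.Agent.S24.SymFinal
import Fermat.Agent.S24.SymFrac
import Fermat.Agent.S24.SymPoint
import Fermat.Agent.S24.SymCuspOrd

set_option autoImplicit false
open ModularCurve

namespace Fermat.Agent.S24

theorem s24_pointDvd : PointDvdStatement := by
  intro N _ _ Θ₀ π hΘ c z₀ hz₀ P hP g hint hvan a b hb hg Pk hPk
  exact anD_point_dvd pointPlace hΘ c z₀ hz₀ P hP g hint hvan a b hb hg Pk hPk

theorem s24_cuspDvd : CuspDvdStatement := by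
  intro N _ _ Θ₀ π hΘ P hP g hint hvan a b hb hg Pk hPk
  exact anDc_cusp_dvd' hΘ P hP g hint hvan a b hb hg Pk hPk

theorem result (N : ℕ) [NeZero N]
    [AlgebraicCurve.HasCanonicalDivisor (K := AlgebraicClosure ℚ) (F := ↥(ModularCurve.modularFunctionFieldBar N))] :
    (AlgebraicCurve.genus (AlgebraicClosure ℚ) ↥(ModularCurve.modularFunctionFieldBar N) : ℚ)
      = ModularCurve.genusFormula N := by
  exact final_target ff_fundamentalIdentity (symF_point symFr_frac s24_pointDvd)
    (symF_cusp symFr_frac s24_cuspDvd) N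

end Fermat.Agent.S24
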