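import Fermat.Statements.S18
import Fermat.Agent.S18.Assembly
import Fermat.Agent.S18.ModelMain
import Fermat.Agent.S18.Const
import Fermat.Agent.S18.WireOf
import Fermat.Agent.S18.Down
import Fermat.Agent.S18.RatQ
import Fermat.Agent.S18.Cfe
import Fermat.Agent.S18.Discrete

set_option autoImplicit false
open ModularCurve

namespace Fermat.Agent.S18

theorem result (N : ℕ) [NeZero N] {ℓ : ℕ}
    [Fact ℓ.Prime] (hℓN : ¬ ℓ ∣ N) (A : ValuationSubring (AlgebraicClosure ℚ)) (hA : A.LiesOverPrime ℓ)
    (h : ModularCurve.ReductionInputsModL A N) (m : ℕ) (hm : ¬ ℓ ∣ m) (z : ModularCurve.JZero N)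
    (hmz : m • z = 0) (hz : ModularCurve.reductionModL A N z = 0) :
    z = 0 :=
  s18_result_of (s18w_main s18c_main) s18d_main
    (s18_starM_ofQ s18rq_main s18_modelQ_main s18_astar_main s18cfe_main s18disc_main)
    N hℓN A hA h m hm z hmz hz

end Fermat.Agent.S18
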