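import Fermat.Statements.S37
import Fermat.Agent.S18
import Fermat.Agent.S37.Formal
import Fermat.Agent.S37.RhoDefs
import Fermat.Agent.S37.Frob
import Fermat.Agent.S37.EqMain
import Fermat.Agent.S37.EsFinal
import Fermat.Agent.S37.DescBCDescend
import Fermat.Agent.S37.RIAsm

set_option autoImplicit false
open ModularCurve

namespace Fermat.Agent.S37

/-- **[RI]** closed: the reduction inputs exist at every level `M` prime to `ℓ` with `4 ∣ M` or
`9 ∣ M` (helper26's assembly on the good model of S18). -/
theorem s37_ri_main : s37_RedInputsStatement :=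
  s37ri_main_of S18.s18_modelQ_main

/-- **[INJ]** = the statement S18. -/
theorem s37_inj_main : s37_InjStatement :=
  fun N _ _ _ hℓN A hA h m hm z hmz hz => Fermat.Agent.S18.result N hℓN A hA h m hm z hmz hz

/-- **[RHO]** closed. -/
theorem s37_rho_main : s37_RhoStatement :=
  s37_rho_of s37_ri_main s37eq_final s37fin_es s37_inj_main s37bc_descend s37_frob_main

theorem result (N p : ℕ) [NeZero N] (hcomm : ModularCurve.HeckeOperatorsCommuteBar N) : letI := ModularCurve.heckeModuleBar N; ∀ (_ : SMulCommClass (AlgebraicClosure ℚ ≃ₐ[ℚ] AlgebraicClosure ℚ) ModularCurve.HeckeAlg (ModularCurve.JZero N)), ModularCurve.SpecializationExists (K := ℚ) (L := AlgebraicClosure ℚ) N p (ModularCurve.JZero N) :=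
  s37f_main s37_rho_main N p hcomm

end Fermat.Agent.S37
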