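-- S31 (row 30): in a Hecke–Galois datum of level `N` away from `S`, the Galois representation is
-- unramified at every prime outside `S`.
--
-- Route (architect: helper6; interface `S31/Defs.lean` by helper9): the kernel of a residually
-- absolutely irreducible representation over a local ring is determined by its trace ([KER],
-- helper19); modulo every power of the maximal ideal the trace is invariant under the inertia
-- groups at the primes outside `S` ([TR], `S31/TraceOf.lean`): Frobenius density ([FD], S29), the
-- Eichler–Shimura relation and the triviality of inertia on the torsion of `J₀(N)` (S37, S18), the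
-- Lucas sequences (helper5), the cyclotomic character modulo `p ^ k` (helper10), and the faithful
-- action of the Hecke algebra on the torsion of `J₀(N)` with bounded denominators ([FAITH],
-- helper7, from the Kummer map [KUM] of S29, helper26); Krull's intersection theorem concludes.
import Fermat.Statements.S31
import Fermat.Agent.S31.Wire
import Fermat.Agent.S31.Faith
import Fermat.Agent.S31.CycK
import Fermat.Agent.S29.FdMain
import Fermat.Agent.S29.KumFinal
import Fermat.Agent.S37

set_option autoImplicit false
variable {p : ℕ} {N : ℕ} [NeZero N] {S : Finset ℕ}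
  {𝒪 : Type} [CommRing 𝒪] [IsDomain 𝒪] [IsDiscreteValuationRing 𝒪]
  [IsAdicComplete (IsLocalRing.maximalIdeal 𝒪) 𝒪]
  {θ : CuspForm.heckeAlgebra N 2 (↑S : Set ℕ) →+* IsLocalRing.ResidueField 𝒪}
  {T : Type} [CommRing T] [IsLocalRing T] [IsNoetherianRing T]
  [IsAdicComplete (IsLocalRing.maximalIdeal T) T] [Algebra 𝒪 T] [IsLocalHom (algebraMap 𝒪 T)]
  [Module.Finite 𝒪 T] [Module.Free 𝒪 T]
open CuspForm CuspForm.HeckeGaloisRepDatum

namespace Fermat.Agent.S31

theorem result (hp : p.Prime)
    (hp𝒪 : (p : 𝒪) ∈ IsLocalRing.maximalIdeal 𝒪) (hpS : p ∈ S)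
    (hNS : ∀ q : ℕ, q.Prime → q ∣ N → q ∈ S)
    (H : CuspForm.HeckeGaloisRepDatum N (↑S : Set ℕ) 𝒪 θ T)
    (q : ℕ) (hq : q.Prime) (hqS : q ∉ S) :
    H.ρ.IsUnramifiedAt q :=
  s31c_goal_main_of (s31fa_main Fermat.Agent.S29.s29k_main) Fermat.Agent.S29.s29fd_main
    Fermat.Agent.S37.s37_rho_main s31cy_main hp hp𝒪 hpS hNS H q hq hqS

end Fermat.Agent.S31
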