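-- S34 (row 33): in a Hecke–Galois datum of level `N` away from `S`, the Galois representation has
-- unipotent inertia at every prime `q ≠ p` that exactly divides `N`.
--
-- Route (architect: helper13; interface `S34/Defs.lean`, `S34/KOf.lean`): modulo every power of the
-- maximal ideal the trace of `(τ - 1)² g` vanishes for `τ` in the inertia group at `q` ([S34-TR],
-- helper7, helper10), because `(τ - 1)²` kills the torsion of `J₀(N)` prime to `q` ([U-WIRE],
-- helper9; [U-DOWN]; [U-RAT], helper25).  The latter is proved on the semistable model of `X₀(M q)`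
-- over a discrete valuation ring above `q` (two Gauss branches `V_∞`, `V_0 = W V_∞` exchanged by
-- the Atkin–Lehner involution, helper8, helper27; the count of the branches, helper26, helper22,
-- helper19; integrality of the modular equation, helper17, helper24; saturation, helper28; the
-- vertical primes, helper7, helper10; the branches are the model of level `M`, helper15, helper14;
-- the nodes, helper23; local generators at the closed points, helper4, helper5, helper21,
-- helper10; the inertia action, helper3; the assembly, helper29) and the lifting theorem for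
-- functions which are locally `m`-th powers ([LIFT2], helper18, helper2, helper28, helper7).
import Fermat.Statements.S34
import Fermat.Agent.S34.TrMain
import Fermat.Agent.S34.UWire
import Fermat.Agent.S34.URat
import Fermat.Agent.S34.LiftMain
import Fermat.Agent.S34.KOf
import Fermat.Agent.S34.KMainOf
import Fermat.Agent.S34.KVertFinal
import Fermat.Agent.S34.SsNodeK

set_option autoImplicit false
set_option autoImplicit false
open IsLocalRing
open CuspForm CuspForm.HeckeGaloisRepDatum

namespace Fermat.Agent.S34

theorem result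
    {𝒪 : Type} [CommRing 𝒪] [IsDomain 𝒪] [IsDiscreteValuationRing 𝒪]
    [IsAdicComplete (maximalIdeal 𝒪) 𝒪] [Finite (ResidueField 𝒪)] [CharZero 𝒪]
    {p : ℕ} (hp : p.Prime) (hp𝒪 : (p : 𝒪) ∈ maximalIdeal 𝒪)
    {N : ℕ} [NeZero N] {S : Finset ℕ} (hpS : p ∈ S) (hNS : ∀ q : ℕ, q.Prime → q ∣ N → q ∈ S)
    {θ : CuspForm.heckeAlgebra N 2 (↑S : Set ℕ) →+* ResidueField 𝒪}
    {T : Type} [CommRing T] [IsLocalRing T] [IsNoetherianRing T]
    [IsAdicComplete (maximalIdeal T) T] [Algebra 𝒪 T] [IsLocalHom (algebraMap 𝒪 T)]
    [Module.Finite 𝒪 T] [Module.Free 𝒪 T]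
    (H : CuspForm.HeckeGaloisRepDatum N (↑S : Set ℕ) 𝒪 θ T)
    (q : ℕ) (hq : q.Prime) (hqp : q ≠ p) (hqN : q ∣ N) (hq2 : ¬ q ^ 2 ∣ N) :
    H.ρ.IsUnipotentOnInertiaAt q := by
  exact s34_goal_of s34tt_tr_main s34uw_main s34ur_main
    (s34_ustarK_of s34l_lift2_main
      (s34km_kdata_of3 s34iw_int_main s34kvi_main s34nd_dich_main))
    hp hp𝒪 hpS hNS H q hq hqp hqN hq2

end Fermat.Agent.S34
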