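import Fermat.Statements.S35
import Fermat.Agent.S35.TopAsm
import Fermat.Agent.S35.NModAsm
import Fermat.Agent.S35.JPush
import Fermat.Agent.S35.NLatMain
import Fermat.Agent.S35.KPushMain
import Fermat.Agent.S35.NfWire
import Fermat.Agent.S35.NfDown
import Fermat.Agent.S35.NfRatMain
import Fermat.Agent.S35.NfKDefs
import Fermat.Agent.S35.NfKMain
import Fermat.Agent.S34.LiftMain
import Fermat.Agent.S29.FdMain
import Fermat.Agent.S29.RootFinJ
import Fermat.Agent.S30.CycTop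
import Fermat.Agent.S30.Quad
import Fermat.Agent.S30.Alg
import Fermat.Agent.S30.TateMain
import Fermat.Agent.S37

set_option autoImplicit false
set_option autoImplicit false
open Polynomial
open CuspForm CuspForm.IsNewform

namespace Fermat.Agent.S35

theorem result
    {M : ℕ} [NeZero M] {g : CuspForm (CongruenceSubgroup.Gamma0 M) 2} (hg : g.IsNewform)
    (lam : ℕ) [Fact lam.Prime]
    (S : Finset ℕ)
    (O' : Type) [CommRing O'] [IsDomain O'] [IsDiscreteValuationRing O']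
    [IsAdicComplete (IsLocalRing.maximalIdeal O') O'] [Finite (IsLocalRing.ResidueField O')]
    [CharZero O'] (hlamO' : (lam : O') ∈ IsLocalRing.maximalIdeal O')
    (chig : CuspForm.heckeAlgebra M 2 (↑S : Set ℕ) →+* ℂ)
    (hchig : ∀ (ℓ : ℕ) (hℓ : ℓ.Prime) (hℓM : ¬ ℓ ∣ M) (hℓS : ℓ ∉ (↑S : Set ℕ)),
      chig (CuspForm.heckeAlgebra.T hℓ hℓM hℓS) = ModularFormClass.qCoeff g ℓ)
    (iota : chig.range →+* O')
    (hlamS : lam ∈ S) (hMS : ∀ q : ℕ, q.Prime → q ∣ M → q ∈ S)
    :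
    ∃ (O'' : Type) (_ : CommRing O'') (_ : IsDomain O'') (_ : IsDiscreteValuationRing O'')
      (_ : IsAdicComplete (IsLocalRing.maximalIdeal O'') O'') (_ : Finite (IsLocalRing.ResidueField O''))
      (_ : CharZero O'') (_ : Algebra O' O'') (_ : Module.Finite O' O'') (_ : IsLocalHom (algebraMap O' O'')),
      Function.Injective (algebraMap O' O'') ∧
      ∃ ρ : GaloisRepAdic O'',
        (∀ (ℓ : ℕ) (hℓ : ℓ.Prime) (hℓM : ¬ ℓ ∣ M) (hℓS : ℓ ∉ (↑S : Set ℕ)),
          ∀ A : ValuationSubring (AlgebraicClosure ℚ), A.LiesOverPrime ℓ →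
            ∀ σ : AlgebraicClosure ℚ ≃ₐ[ℚ] AlgebraicClosure ℚ, A.IsFrobeniusAt σ ℓ →
              LinearMap.charpoly (ρ.ρ σ) =
                X ^ 2 - C (algebraMap O' O'' ((iota.comp chig.rangeRestrict) (CuspForm.heckeAlgebra.T hℓ hℓM hℓS))) * X
                  + C ((ℓ : O''))) ∧
        (∀ q : ℕ, q.Prime → q ≠ lam → q ∣ M → ¬ q ^ 2 ∣ M →
          ∀ A : ValuationSubring (AlgebraicClosure ℚ), A.LiesOverPrime q →
            ∀ σ : AlgebraicClosure ℚ ≃ₐ[ℚ] AlgebraicClosure ℚ, A.IsFrobeniusAt σ q →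
              LinearMap.charpoly (ρ.ρ σ) = X ^ 2 - C ((q : O'') + 1) * X + C ((q : O'')) ∨
              LinearMap.charpoly (ρ.ρ σ) = X ^ 2 + C ((q : O'') + 1) * X + C ((q : O''))) := by
  exact s35_goal_of Fermat.Agent.S29.s29fd_main
    (s35_nmod_of Fermat.Agent.S30.s30t_main s35kp_kumPush s35jp_pushGal s35nl_main
      (fun N _ n hn => Fermat.Agent.S29.s29rf_jzero_finite N n hn)
      Fermat.Agent.S37.s37_rho_main
      (s35_newFrob_of s35dn_main s35wi_main s35nr_main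
        (s35k_ustarK_of Fermat.Agent.S34.s34l_lift2_main s35k_data_main)))
    Fermat.Agent.S30.s30cy_top Fermat.Agent.S30.s30q_main Fermat.Agent.S30.s30a_main
    hg lam S O' hlamO' chig hchig iota hlamS hMS

end Fermat.Agent.S35
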