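-- Statement S51 (row 45): a semistable curve has irreducible mod-3 or mod-5 representation.
import Fermat.Statements.S51
import Fermat.Agent.S51.Galois
import Fermat.Agent.S51.TorsionRel
import Fermat.Agent.S51.TorsionCard
import Fermat.Agent.S51.AssemblyCore

set_option autoImplicit false
open WeierstrassCurve WeierstrassCurve.Affine WeierstrassCurve.Affine.Point
open CuspForm ModularFormClass UpperHalfPlane
open WeierstrassCurve

namespace Fermat.Agent.S51

theorem result (W : WeierstrassCurve ℤ) (hΔ : W.Δ ≠ 0) (hW : W.IsSemistableModel) : W.ModRepIsIrreducible 3 ∨ W.ModRepIsIrreducible 5 := by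
  by_contra hcon
  rw [not_or] at hcon
  obtain ⟨hred3, hred5⟩ := hcon
  -- cardinality bounds for the `3`- and `5`-torsion over `AlgebraicClosure ℚ`
  obtain ⟨hfin3, hcard3⟩ := Fermat.Agent.S51.card_torsion_three_le
    (W := (W.map (Int.castRingHom ℚ))⁄(AlgebraicClosure ℚ)) (by norm_num)
  obtain ⟨hfin5, hcard5⟩ := Fermat.Agent.S51.card_torsion_five_le
    (W := (W.map (Int.castRingHom ℚ))⁄(AlgebraicClosure ℚ)) (by norm_num)
  -- Galois-stable lines give torsion points with rational invariants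
  obtain ⟨x3, y3, hxy3, r3, hP3, hx3⟩ := Fermat.Agent.S51.stable_three W hΔ hcard3 hred3
  obtain ⟨x5, y5, x5', y5', hxy5, hxy5', e₁, e₂, hP5, h2P5, he₁, he₂⟩ :=
    Fermat.Agent.S51.stable_five W hΔ hcard5 hred5
  -- the torsion relations
  obtain ⟨hψ3, hB3⟩ := Fermat.Agent.S51.three_torsion_rel hxy3 hP3
  obtain ⟨x', y', h', h2, hA, hA', hne, -, -⟩ := Fermat.Agent.S51.five_torsion_rel hxy5 hP5
  have hxx : x' = x5' := by
    rw [h2P5] at h2
    injection h2 with hx _
    exact hx.symm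
  subst hxx
  have h35 := Fermat.Agent.S51.x_ne_of_three_of_five hxy3 hxy5 hP3 hP5
  have h35' := Fermat.Agent.S51.x_ne_of_three_of_two_nsmul_five hxy3 hxy5 hxy5' hP3 hP5 h2P5
  -- the `b`-invariants of the base-changed curve are the casts of those of `W`
  have hb₂ : ((W.map (Int.castRingHom ℚ))⁄(AlgebraicClosure ℚ)).b₂
      = ((W.b₂ : ℤ) : AlgebraicClosure ℚ) := by
    simp [WeierstrassCurve.baseChange, WeierstrassCurve.map_b₂]
  have hb₄ : ((W.map (Int.castRingHom ℚ))⁄(AlgebraicClosure ℚ)).b₄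
      = ((W.b₄ : ℤ) : AlgebraicClosure ℚ) := by
    simp [WeierstrassCurve.baseChange, WeierstrassCurve.map_b₄]
  have hb₆ : ((W.map (Int.castRingHom ℚ))⁄(AlgebraicClosure ℚ)).b₆
      = ((W.b₆ : ℤ) : AlgebraicClosure ℚ) := by
    simp [WeierstrassCurve.baseChange, WeierstrassCurve.map_b₆]
  have hb₈ : ((W.map (Int.castRingHom ℚ))⁄(AlgebraicClosure ℚ)).b₈
      = ((W.b₈ : ℤ) : AlgebraicClosure ℚ) := by
    simp [WeierstrassCurve.baseChange, WeierstrassCurve.map_b₈]
  rw [hb₂, hb₄, hb₆, hb₈] at hψ3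
  rw [hb₂, hb₄, hb₆] at hB3
  rw [hb₂, hb₄, hb₆, hb₈] at hA hA'
  exact Fermat.Agent.S51.assembly_core W hΔ hW x3 x5 x' r3 e₁ e₂
    (by rw [hx3]; exact (eq_ratCast _ r3))
    (by rw [he₁]; exact (eq_ratCast _ e₁))
    (by rw [he₂]; exact (eq_ratCast _ e₂))
    hψ3 hB3 hA hA' hne h35 h35'

end Fermat.Agent.S51
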