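-- Statement S53 (row 47): existence of the universal deformation ring.
-- The statement below is byte-identical to the frozen statement GaloisRep.FermatFrozen.S53
-- (Fermat/Statements/S53.lean; the theorem GaloisRep.nonempty_deformationRingData).
import Fermat.Statements.S53
import Fermat.Agent.S53.Rigidify
import Fermat.Agent.S53.Family
import Fermat.Agent.S53.Levels
import Fermat.Agent.S53.Assembly

set_option autoImplicit false
set_option autoImplicit false
open GaloisRep

namespace Fermat.Agent.S53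

theorem result
    (𝒪 : Type) [CommRing 𝒪] [IsDomain 𝒪] [IsDiscreteValuationRing 𝒪]
    [IsAdicComplete (IsLocalRing.maximalIdeal 𝒪) 𝒪] [Finite (IsLocalRing.ResidueField 𝒪)]
    (ρbar : ResidualGaloisRep (IsLocalRing.ResidueField 𝒪))
    (𝒟 : ∀ ⦃A : Type⦄ [CommRing A] [IsLocalRing A] [Algebra 𝒪 A], GaloisRepAdic A → Prop)
    (habs : ρbar.IsAbsolutelyIrreducible)
    (h𝒟 : GaloisRep.IsDeformationCondition 𝒪 𝒟)
    (hbar : 𝒟 (GaloisRepAdic.ofResidualGaloisRep ρbar))
    (hfin : GaloisRep.TangentFinite 𝒪 ρbar 𝒟) :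
    Nonempty (GaloisRep.DeformationRingData 𝒪 ρbar 𝒟) := by
  obtain ⟨F⟩ := exists_frame (𝒪 := 𝒪) ρbar habs
  obtain ⟨R, _, _, _, _, _, _, hres, ru, huniv⟩ :=
    exists_universal_rigidLift_of_family h𝒟 F (isRigidFamily_rigidE h𝒟 hbar hfin F)
  exact nonempty_deformationRingData_of_universal 𝒪 ρbar 𝒟 habs h𝒟 F R hres ru huniv

end Fermat.Agent.S53
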