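-- Statement S57: patching, descent step.
import Fermat.Statements.S57
import Fermat.Agent.S57.H28.Patching

set_option autoImplicit false
open Algebra Algebra.PatchingLevel

namespace Fermat.Agent.S57

theorem result
    {𝒪 : Type} [CommRing 𝒪] [IsDomain 𝒪] [IsDiscreteValuationRing 𝒪]
    {r : ℕ} {R : Type} [CommRing R] [Algebra 𝒪 R]
    {M : Type} [AddCommGroup M] [Module R M] [Nontrivial M]
    (L : Algebra.PatchingLevel 𝒪 r R M ⊥) :
    Module.Free R M ∧ Module.annihilator R M = ⊥ ∧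
      RingHom.ker L.ψ = Ideal.span (Set.range fun i : Fin r => L.φ (MvPowerSeries.X i)) := by
  have hfree := H28.patch_free L
  have hN : Nontrivial L.N := L.π_surjective.nontrivial
  have hne : Nonempty (Module.Free.ChooseBasisIndex (MvPowerSeries (Fin r) 𝒪) L.N) :=
    (Module.Free.chooseBasis (MvPowerSeries (Fin r) 𝒪) L.N).index_nonempty
  have hI : Ideal.span (Set.range fun i : Fin r => L.φ (MvPowerSeries.X i)) ≤
      RingHom.ker (L.ψ : MvPowerSeries (Fin r) 𝒪 →+* R) :=
    Ideal.span_le.mpr (by rintro _ ⟨i, rfl⟩; exact L.ψ_φ_X i)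
  have hfreeM : Module.Free R M :=
    H28.descent_free (L.ψ : MvPowerSeries (Fin r) 𝒪 →+* R) L.ψ_surjective L.π L.π_surjective
      L.π_smul _ L.ker_π hI (Module.Free.chooseBasis (MvPowerSeries (Fin r) 𝒪) L.N)
  refine ⟨hfreeM, ?_, ?_⟩
  · exact Module.annihilator_eq_bot.mpr inferInstance
  · have h := H28.descent_ker_eq (L.ψ : MvPowerSeries (Fin r) 𝒪 →+* R) L.π
      L.π_smul _ L.ker_π hI (Module.Free.chooseBasis (MvPowerSeries (Fin r) 𝒪) L.N)
    rw [← h]
    rfl

end Fermat.Agent.S57
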